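import Fermat.Agent.K2Rat.Symbol

/-!
# Milnor K-groups

`K_n F` is presented by symbols of `n` units, multiplicative in every slot and zero when two
neighbours sum to one.
-/

set_option autoImplicit false

noncomputable section

open Function (update)

namespace Fermat.Agent.MilnorKRat

open Fermat.Agent.K2Rat

variable (n : ℕ) (F : Type*) [Field F]

/-- The relations of `K_n`. -/
def milnorRel : AddSubgroup (FreeAbelianGroup (Fin n → Fˣ)) :=
  AddSubgroup.closure
    ({z | ∃ v i a b, z = .of (update v i (a * b)) - .of (update v i a) - .of (update v i b)} ∪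
      {z | ∃ v : Fin n → Fˣ, (∃ i j : Fin n, (i : ℕ) + 1 = j ∧ (v i : F) + v j = 1) ∧ z = .of v})

/-- **The Milnor K-group.** -/
def MilnorK : Type _ := FreeAbelianGroup (Fin n → Fˣ) ⧸ milnorRel n F

instance : AddCommGroup (MilnorK n F) :=
  inferInstanceAs (AddCommGroup (FreeAbelianGroup (Fin n → Fˣ) ⧸ milnorRel n F))

/-- The quotient map. -/
def MilnorK.quot : FreeAbelianGroup (Fin n → Fˣ) →+ MilnorK n F :=
  QuotientAddGroup.mk' (milnorRel n F)

variable {n} {F}

/-- The symbol of `n` units. -/
def milnor (v : Fin n → Fˣ) : MilnorK n F := MilnorK.quot n F (.of v)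

theorem milnor_mul (v : Fin n → Fˣ) (i : Fin n) (a b : Fˣ) :
    milnor (update v i (a * b)) = milnor (update v i a) + milnor (update v i b) := by
  rw [← sub_eq_zero, milnor, milnor, milnor, ← map_add, ← map_sub, ← sub_sub]
  exact (QuotientAddGroup.eq_zero_iff _).2
    (AddSubgroup.subset_closure (Or.inl ⟨v, i, a, b, rfl⟩))

theorem milnor_steinberg (v : Fin n → Fˣ) {i j : Fin n} (hij : (i : ℕ) + 1 = j)
    (h : (v i : F) + v j = 1) : milnor v = 0 :=
  (QuotientAddGroup.eq_zero_iff _).2
    (AddSubgroup.subset_closure (Or.inr ⟨v, ⟨i, j, hij, h⟩, rfl⟩))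

variable {A : Type*} [AddCommGroup A]

/-- The homomorphism of a map with the relations. -/
def milnorLift (f : (Fin n → Fˣ) → A)
    (hm : ∀ v i a b, f (update v i (a * b)) = f (update v i a) + f (update v i b))
    (hs : ∀ (v : Fin n → Fˣ) (i j : Fin n), (i : ℕ) + 1 = j → (v i : F) + v j = 1 → f v = 0) :
    MilnorK n F →+ A :=
  QuotientAddGroup.lift (milnorRel n F) (FreeAbelianGroup.lift f) (by
    rw [milnorRel, AddSubgroup.closure_le]
    rintro z (⟨v, i, a, b, rfl⟩ | ⟨v, ⟨i, j, hij, h⟩, rfl⟩)
    · simp [hm]
    · simp [hs v i j hij h])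

theorem milnorLift_apply (f : (Fin n → Fˣ) → A) (hm) (hs) (v : Fin n → Fˣ) :
    milnorLift (F := F) f hm hs (milnor v) = f v := by
  show FreeAbelianGroup.lift f (FreeAbelianGroup.of v) = _
  rw [FreeAbelianGroup.lift_apply_of]

theorem milnor_induction {P : MilnorK n F → Prop} (h0 : P 0) (hv : ∀ v, P (milnor v))
    (hneg : ∀ x, P x → P (-x)) (hadd : ∀ x y, P x → P y → P (x + y)) (x : MilnorK n F) : P x := by
  obtain ⟨y, rfl⟩ := QuotientAddGroup.mk'_surjective (milnorRel n F) x
  induction y using FreeAbelianGroup.induction_on with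
  | zero => exact h0
  | of v => exact hv v
  | neg a ih => rw [map_neg]; exact hneg _ ih
  | add y z hy hz => rw [map_add]; exact hadd _ _ hy hz

theorem milnor_hom_ext {f g : MilnorK n F →+ A} (h : ∀ v, f (milnor v) = g (milnor v)) : f = g :=
  AddMonoidHom.ext fun x => milnor_induction (P := fun x => f x = g x) (by simp) h
    (fun x hx => by simp [hx]) (fun x y hx hy => by simp [hx, hy]) x

/-- The symbol in one slot. -/
def slotHom (v : Fin n → Fˣ) (i : Fin n) : Additive Fˣ →+ MilnorK n F :=
  AddMonoidHom.mk' (fun a => milnor (update v i a.toMul))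
    fun a b => milnor_mul v i a.toMul b.toMul

theorem milnor_of_eq_one {v : Fin n → Fˣ} {i : Fin n} (h : v i = 1) : milnor v = 0 := by
  have h0 : milnor (update v i 1) = 0 := map_zero (slotHom v i)
  rwa [← h, Function.update_eq_self] at h0

theorem milnor_zpow (v : Fin n → Fˣ) (i : Fin n) (a : Fˣ) (k : ℤ) :
    milnor (update v i (a ^ k)) = k • milnor (update v i a) :=
  map_zsmul (slotHom v i) k (Additive.ofMul a)

/-- Two neighbouring slots form a Steinberg symbol. -/
def pairSymbol (v : Fin n → Fˣ) (i j : Fin n) (hij : (i : ℕ) + 1 = j) :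
    SteinbergSymbol F (MilnorK n F) where
  toFun a b := milnor (update (update v i a) j b)
  mul_left a b c := by
    have hne : i ≠ j := fun e => by rw [e] at hij; omega
    have hc : ∀ x : Fˣ, update (update v i x) j c = update (update v j c) i x :=
      fun x => Function.update_comm hne x c v
    rw [hc, hc, hc, milnor_mul]
  mul_right a b c := milnor_mul _ j b c
  steinberg a b h := by
    have hne : i ≠ j := fun e => by rw [e] at hij; omega
    refine milnor_steinberg _ hij ?_
    rwa [Function.update_of_ne hne, Function.update_self, Function.update_self]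

theorem pairSymbol_apply (v : Fin n → Fˣ) (i j : Fin n) (hij : (i : ℕ) + 1 = j) :
    pairSymbol v i j hij (v i) (v j) = milnor v := by
  show milnor (update (update v i (v i)) j (v j)) = _
  rw [Function.update_eq_self, Function.update_eq_self]

/-- Neighbours anticommute. -/
theorem milnor_swap (v : Fin n → Fˣ) {i j : Fin n} (hij : (i : ℕ) + 1 = j) :
    milnor (update (update v i (v j)) j (v i)) = -milnor v := by
  rw [← pairSymbol_apply v i j hij]
  exact eq_neg_of_add_eq_zero_right ((pairSymbol v i j hij).skew (v i) (v j))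

/-- Equal neighbours: one may be replaced by `-1`. -/
theorem milnor_self (v : Fin n → Fˣ) {i j : Fin n} (hij : (i : ℕ) + 1 = j) (h : v i = v j) :
    milnor v = milnor (update v j (-1)) := by
  conv_lhs => rw [← pairSymbol_apply v i j hij, ← h, (pairSymbol v i j hij).self_eq]
  show milnor (update (update v i (v i)) j (-1)) = _
  rw [Function.update_eq_self]

/-- **Finite fields have no higher K-theory.** -/
theorem milnorK_finite_subsingleton [Finite F] (hn : 2 ≤ n) : Subsingleton (MilnorK n F) := by
  have h : ∀ x : MilnorK n F, x = 0 := milnor_induction rfl (fun v => by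
    rw [← pairSymbol_apply v ⟨0, by omega⟩ ⟨1, by omega⟩ rfl]
    exact SteinbergSymbol.eq_zero_of_finite _ _ _) (fun x hx => by rw [hx, neg_zero])
    fun x y hx hy => by rw [hx, hy, add_zero]
  exact ⟨fun x y => by rw [h x, h y]⟩

end Fermat.Agent.MilnorKRat
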