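import Fermat.Agent.MilnorKRat.Rational
import Fermat.Agent.WittRat.Group
import Fermat.Agent.WittRat.Residue
import Fermat.Agent.QuadForms.Corollaries

/-!
# Powers of the fundamental ideal

In the Witt group of `ℚ` a Pfister class with three or more slots is `0` if a slot is negative,
and `2 ^ n ⟨1⟩` otherwise: indefinite forms in eight variables have a zero, and an isotropic
Pfister class vanishes by roundness.
-/

set_option autoImplicit false

noncomputable section

namespace Fermat.Agent.MilnorKRat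

open Fermat.Agent.K2Rat Fermat.Agent.WittRat

variable {F : Type*} [Field F]

/-- The class of the Pfister form `⟨1, a₁⟩ ⊗ ⋯ ⊗ ⟨1, aₙ⟩`. -/
def pfisterClass : List Fˣ → W F
  | [] => wittClass F 1
  | a :: l => pfisterClass l + scale a (pfisterClass l)

theorem scale_one (z : W F) : scale 1 z = z :=
  DFunLike.congr_fun (WittRat.hom_ext (f := scale (1 : Fˣ)) (g := AddMonoidHom.id _) fun a => by
    simp) z

theorem scale_scale (a b : Fˣ) (z : W F) : scale a (scale b z) = scale (a * b) z :=
  DFunLike.congr_fun (WittRat.hom_ext (f := (scale a).comp (scale b)) (g := scale (a * b))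
    fun c => by
    simp [mul_assoc]) z

theorem scale_mul_sq (a b : Fˣ) (z : W F) : scale (a * b ^ 2) z = scale a z :=
  DFunLike.congr_fun (WittRat.hom_ext (f := scale (a * b ^ 2)) (g := scale a) fun c => by
    rw [scale_wittClass, scale_wittClass]
    exact (wittClass F).eq_of_div_sq (c := b) (by ac_rfl)) z

theorem scale_neg (a : Fˣ) (z : W F) : scale (-a) z = -scale a z :=
  DFunLike.congr_fun (WittRat.hom_ext (f := scale (-a)) (g := -scale a) fun c => by
    rw [scale_wittClass, AddMonoidHom.neg_apply, scale_wittClass, neg_mul,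
      (wittClass F).apply_neg]) z

theorem scale_binary {a b c : Fˣ} (h : (a : F) + b = c) (z : W F) :
    scale a z + scale b z = scale c z + scale (a * b * c) z :=
  DFunLike.congr_fun (WittRat.hom_ext (f := scale a + scale b) (g := scale c + scale (a * b * c))
    fun d => by
      rw [AddMonoidHom.add_apply, AddMonoidHom.add_apply, scale_wittClass, scale_wittClass,
        scale_wittClass, scale_wittClass, (wittClass F).binary (a * d) (b * d) (c * d) (by
          push_cast
          rw [← add_mul, h])]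
      refine congrArg _ ((wittClass F).eq_of_div_sq (c := d) ?_)
      rw [pow_two]
      ac_rfl) z

theorem pfisterClass_comm (a b : Fˣ) (l : List Fˣ) :
    pfisterClass (a :: b :: l) = pfisterClass (b :: a :: l) := by
  simp only [pfisterClass, map_add, scale_scale, mul_comm a b]
  abel

/-- The values of the Pfister form. -/
def IsValue : List Fˣ → F → Prop
  | [], c => ∃ x, c = x ^ 2
  | a :: l, c => ∃ s t, IsValue l s ∧ IsValue l t ∧ c = s + a * t

/-- **Roundness**: nonzero values are similarity factors of the class. -/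
theorem scale_of_isValue : ∀ (l : List Fˣ) (c : Fˣ), IsValue l (c : F) →
    scale c (pfisterClass l) = pfisterClass l
  | [], c, ⟨x, hx⟩ => by
    have hx0 : x ≠ 0 := fun e => c.ne_zero (by rw [hx, e]; ring)
    rw [pfisterClass, scale_wittClass]
    exact (wittClass F).eq_of_div_sq (c := Units.mk0 x hx0) (Units.ext (by simp [hx]))
  | a :: l, c, ⟨s, t, hs, ht, hc⟩ => by
    rw [pfisterClass, map_add, scale_scale]
    rcases eq_or_ne t 0 with rfl | ht0
    · have hcs : IsValue l (c : F) := by rw [hc]; simpa using hs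
      rw [scale_of_isValue l c hcs, mul_comm c a, ← scale_scale a c, scale_of_isValue l c hcs]
    set T := Units.mk0 t ht0
    have hT : scale T (pfisterClass l) = pfisterClass l := scale_of_isValue l T ht
    rcases eq_or_ne s 0 with rfl | hs0
    · have hca : c = a * T := Units.ext (by simp [T, hc])
      rw [hca, ← scale_scale a T, hT, show a * T * a = T * a ^ 2 by rw [pow_two]; ac_rfl,
        scale_mul_sq, hT, add_comm]
    set S := Units.mk0 s hs0
    have hS : scale S (pfisterClass l) = pfisterClass l := scale_of_isValue l S hs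
    have h := scale_binary (a := S) (b := a * T) (c := c) (by simp [S, T, hc]) (pfisterClass l)
    rw [hS, ← scale_scale a T, hT, show S * (a * T) * c = c * a * (S * T) by ac_rfl,
      ← scale_scale (c * a), ← scale_scale S, hT, hS] at h
    exact h.symm

/-- **An isotropic Pfister class vanishes**, one step. -/
theorem pfisterClass_cons_eq_zero (a : Fˣ) {l : List Fˣ} {s t : F} (hs : IsValue l s)
    (ht : IsValue l t) (h : s + a * t = 0) (hne : s ≠ 0) : pfisterClass (a :: l) = 0 := by
  have ht0 : t ≠ 0 := fun e => hne (by simpa [e] using h)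
  have hS := scale_of_isValue l (Units.mk0 s hne) hs
  rw [show Units.mk0 s hne = -(a * Units.mk0 t ht0) from Units.ext (by
    simp only [Units.val_mk0, Units.val_neg, Units.val_mul]
    linear_combination h), scale_neg, ← scale_scale, scale_of_isValue l _ ht,
    neg_eq_iff_eq_neg] at hS
  rw [pfisterClass, hS, add_neg_cancel]

theorem pfisterClass_cons_of_eq_zero (a : Fˣ) {l : List Fˣ} (h : pfisterClass l = 0) :
    pfisterClass (a :: l) = 0 := by
  rw [pfisterClass, h, map_zero, add_zero]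

/-- **An indefinite triple.** -/
theorem pfisterClass_triple_eq_zero {a : ℚˣ} (ha : (a : ℚ) < 0) (b c : ℚˣ) :
    pfisterClass [a, b, c] = 0 := by
  set v : Fin 8 → ℚ := ![1, c, b, b * c, a, a * c, a * b, a * (b * c)]
  have hR : FA.QuadForms.Isotropic fun i => (v i : ℝ) := by
    have ha' : ((a : ℚ) : ℝ) < 0 := by exact_mod_cast ha
    refine ⟨fun k => if k = 0 then Real.sqrt (-((a : ℚ) : ℝ)) else if k = 4 then 1 else 0,
      fun h => ?_, ?_⟩
    · have := congrFun h 4
      simp at this
    · rw [Fin.sum_univ_eight]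
      simp [v, Real.sq_sqrt (show (0 : ℝ) ≤ -((a : ℚ) : ℝ) by linarith)]
  obtain ⟨u, hu, he⟩ := (FA.QuadForms.isotropic_of_five (by simp) v).2 hR
  simp [v, Fin.sum_univ_eight] at he
  have hv1 : ∀ x y : ℚ, IsValue [c] (x ^ 2 + c * y ^ 2) := fun x y =>
    ⟨_, _, ⟨x, rfl⟩, ⟨y, rfl⟩, rfl⟩
  have hv2 : ∀ x y z w : ℚ,
      IsValue [b, c] (x ^ 2 + c * y ^ 2 + b * (z ^ 2 + c * w ^ 2)) := fun x y z w =>
    ⟨_, _, hv1 x y, hv1 z w, rfl⟩
  have h1z : ∀ x y : ℚ, x ^ 2 + c * y ^ 2 = 0 → (x ≠ 0 ∨ y ≠ 0) → pfisterClass [c] = 0 := by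
    intro x y h hne
    have hx : x ≠ 0 := fun e => hne.elim (fun hx => hx e) fun hy => hy (by
      simpa [e, c.ne_zero] using h)
    exact pfisterClass_cons_eq_zero c (l := []) ⟨x, rfl⟩ ⟨y, rfl⟩ h (pow_ne_zero 2 hx)
  have h2z : ∀ x y z w : ℚ, x ^ 2 + c * y ^ 2 + b * (z ^ 2 + c * w ^ 2) = 0 →
      (x ≠ 0 ∨ y ≠ 0 ∨ z ≠ 0 ∨ w ≠ 0) → pfisterClass [b, c] = 0 := by
    intro x y z w h hne
    by_cases h0 : x ^ 2 + c * y ^ 2 = 0
    · have h0' : z ^ 2 + c * w ^ 2 = 0 := by simpa [h0, b.ne_zero] using h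
      refine pfisterClass_cons_of_eq_zero b ?_
      rcases hne with h | h | h | h
      exacts [h1z x y h0 (Or.inl h), h1z x y h0 (Or.inr h), h1z z w h0' (Or.inl h),
        h1z z w h0' (Or.inr h)]
    · exact pfisterClass_cons_eq_zero b (hv1 x y) (hv1 z w) h h0
  by_cases h0 : u 0 ^ 2 + c * u 1 ^ 2 + b * (u 2 ^ 2 + c * u 3 ^ 2) = 0
  · have h0' : u 4 ^ 2 + c * u 5 ^ 2 + b * (u 6 ^ 2 + c * u 7 ^ 2) = 0 :=
      (mul_eq_zero.1 (show (a : ℚ) * (u 4 ^ 2 + c * u 5 ^ 2 + b * (u 6 ^ 2 + c * u 7 ^ 2)) = 0 by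
        linear_combination he - h0)).resolve_left a.ne_zero
    refine pfisterClass_cons_of_eq_zero a ?_
    by_cases hA : u 0 ≠ 0 ∨ u 1 ≠ 0 ∨ u 2 ≠ 0 ∨ u 3 ≠ 0
    · exact h2z _ _ _ _ h0 hA
    · refine h2z _ _ _ _ h0' ?_
      push Not at hA
      by_contra! hB
      exact hu (funext fun i => by fin_cases i <;> simp [hA, hB])
  · exact pfisterClass_cons_eq_zero a (hv2 _ _ _ _) (hv2 (u 4) (u 5) (u 6) (u 7))
      (by linear_combination he) h0

theorem pfisterClass_pos_cons {a : ℚˣ} (ha : 0 < (a : ℚ)) (b c : ℚˣ) :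
    pfisterClass [a, b, c] = pfisterClass [1, b, c] := by
  have h := pfisterClass_triple_eq_zero (a := -a) (by simpa using ha) b c
  have e1 : ∀ x : ℚˣ,
      pfisterClass [x, b, c] = pfisterClass [b, c] + scale x (pfisterClass [b, c]) :=
    fun _ => rfl
  rw [e1, scale_neg, add_neg_eq_zero] at h
  rw [e1, e1, scale_one, ← h]

theorem pfisterClass_replicate_one : ∀ n : ℕ,
    pfisterClass (List.replicate n (1 : Fˣ)) = (2 ^ n : ℕ) • wittClass F 1
  | 0 => by simp [pfisterClass]
  | n + 1 => by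
    rw [List.replicate_succ, pfisterClass, scale_one, pfisterClass_replicate_one n, ← two_nsmul,
      smul_smul, pow_succ']

theorem pfisterClass_eight {a b c : ℚˣ} (ha : 0 < (a : ℚ)) (hb : 0 < (b : ℚ)) (hc : 0 < (c : ℚ)) :
    pfisterClass [a, b, c] = (2 ^ 3 : ℕ) • wittClass ℚ 1 := by
  rw [pfisterClass_pos_cons ha, pfisterClass_comm, pfisterClass_pos_cons hb,
    show pfisterClass [1, 1, c] = pfisterClass [1, c, (1 : ℚˣ)] from
      congrArg (fun z => z + scale (1 : ℚˣ) z) (pfisterClass_comm 1 c []),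
    pfisterClass_comm, pfisterClass_pos_cons hc]
  exact pfisterClass_replicate_one 3

/-- **Pfister classes with three or more slots.** -/
theorem pfisterClass_rat : ∀ l : List ℚˣ, 3 ≤ l.length → pfisterClass l =
    if ∀ a ∈ l, 0 < (a : ℚ) then (2 ^ l.length : ℕ) • wittClass ℚ 1 else 0
  | [], h => by simp at h
  | [_], h => by simp at h
  | [_, _], h => by simp at h
  | [a, b, c], _ => by
    split_ifs with h
    · exact pfisterClass_eight (h a (by simp)) (h b (by simp)) (h c (by simp))
    · replace h : (a : ℚ) ≤ 0 ∨ (b : ℚ) ≤ 0 ∨ (c : ℚ) ≤ 0 := by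
        by_contra! hh
        exact h (by simpa using hh)
      rcases h with h | h | h
      · exact pfisterClass_triple_eq_zero (lt_of_le_of_ne h a.ne_zero) b c
      · rw [pfisterClass_comm]
        exact pfisterClass_triple_eq_zero (lt_of_le_of_ne h b.ne_zero) a c
      · rw [show pfisterClass [a, b, c] = pfisterClass [a, c, b] from
          congrArg (fun z => z + scale a z) (pfisterClass_comm b c []), pfisterClass_comm]
        exact pfisterClass_triple_eq_zero (lt_of_le_of_ne h c.ne_zero) a b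
  | a :: b :: c :: d :: l, _ => by
    have ih := pfisterClass_rat (b :: c :: d :: l) (by simp)
    rw [pfisterClass, ih]
    simp only [List.forall_mem_cons, List.length_cons]
    by_cases hl : 0 < (b : ℚ) ∧ 0 < (c : ℚ) ∧ 0 < (d : ℚ) ∧ ∀ x ∈ l, 0 < (x : ℚ)
    swap
    · rw [if_neg hl, if_neg fun h => hl h.2, map_zero, add_zero]
    rw [if_pos hl]
    -- `⟨a⟩` against the eight ones
    have h8 : ∀ x : ℚˣ, scale x ((2 ^ 3 : ℕ) • wittClass ℚ 1) =
        (if 0 < (x : ℚ) then (1 : ℤ) else -1) • ((2 ^ 3 : ℕ) • wittClass ℚ 1) := by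
      intro x
      have e1 : pfisterClass [1, 1, (1 : ℚˣ)] = (2 ^ 3 : ℕ) • wittClass ℚ 1 :=
        pfisterClass_replicate_one 3
      have hpos : ∀ y : ℚˣ, 0 < (y : ℚ) →
          scale y (pfisterClass [1, 1, (1 : ℚˣ)]) = pfisterClass [1, 1, (1 : ℚˣ)] := fun y hy => by
        have h := pfisterClass_triple_eq_zero (a := -y) (by simpa using hy) 1 1
        rw [show pfisterClass [-y, (1 : ℚˣ), 1] =
          pfisterClass [1, (1 : ℚˣ)] + scale (-y) (pfisterClass [1, (1 : ℚˣ)]) from rfl,
          scale_neg, add_neg_eq_zero] at h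
        rw [show pfisterClass [1, 1, (1 : ℚˣ)] =
          pfisterClass [1, (1 : ℚˣ)] + scale 1 (pfisterClass [1, (1 : ℚˣ)]) from rfl, scale_one,
          map_add, ← h]
      rw [← e1]
      split_ifs with hx
      · rw [one_smul, hpos x hx]
      · have := hpos (-x) (by simpa using lt_of_le_of_ne (not_lt.1 hx) x.ne_zero)
        rw [scale_neg, neg_eq_iff_eq_neg] at this
        rw [this, neg_one_smul]
    have hp : (2 ^ (l.length + 1 + 1 + 1) : ℕ) • wittClass ℚ 1 =
        (2 ^ l.length : ℕ) • ((2 ^ 3 : ℕ) • wittClass ℚ 1) := by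
      rw [smul_smul, ← pow_add]
    rw [hp, map_nsmul, h8]
    by_cases ha : 0 < (a : ℚ)
    · rw [if_pos ha, if_pos ⟨ha, hl⟩, one_smul, ← hp, ← two_nsmul, smul_smul, ← pow_succ']
    · rw [if_neg ha, if_neg fun h => ha h.1, neg_one_smul, smul_neg, add_neg_cancel]

/-- **The powers of the fundamental ideal.** -/
def fundamentalPower (F : Type*) [Field F] (n : ℕ) : AddSubgroup (W F) :=
  AddSubgroup.closure (Set.range fun v : Fin n → Fˣ => pfisterClass (List.ofFn v))

theorem pfisterClass_ofFn {n : ℕ} (v : Fin (n + 3) → ℚˣ) :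
    pfisterClass (List.ofFn v) =
      if ∀ i, 0 < (v i : ℚ) then (2 ^ (n + 3) : ℕ) • wittClass ℚ 1 else 0 := by
  classical
  rw [pfisterClass_rat _ (by simp), List.length_ofFn]
  exact if_congr (List.forall_mem_ofFn_iff (P := fun x : ℚˣ => 0 < (x : ℚ))) rfl rfl

theorem fundamentalPower_rat (n : ℕ) :
    fundamentalPower ℚ (n + 3) =
      AddSubgroup.zmultiples ((2 ^ (n + 3) : ℕ) • wittClass ℚ 1) := by
  refine le_antisymm ((AddSubgroup.closure_le _).2 ?_)
    (AddSubgroup.zmultiples_le.2 (AddSubgroup.subset_closure ⟨fun _ => 1, ?_⟩))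
  · rintro _ ⟨v, rfl⟩
    dsimp only
    rw [pfisterClass_ofFn]
    split_ifs
    exacts [AddSubgroup.mem_zmultiples _, zero_mem _]
  · dsimp only
    rw [pfisterClass_ofFn, if_pos fun _ => by norm_num]

/-- `K_n ℚ → I ^ n / I ^ (n + 1)`, `{a₁, …, aₙ} ↦ ⟨⟨-a₁, …, -aₙ⟩⟩`. -/
def toPfister (n : ℕ) : MilnorK (n + 3) ℚ →+ W ℚ ⧸ fundamentalPower ℚ (n + 4) :=
  (ZMod.lift 2 ⟨zmultiplesHom _ (QuotientAddGroup.mk' (fundamentalPower ℚ (n + 4))
      ((2 ^ (n + 3) : ℕ) • wittClass ℚ 1)), by
    rw [zmultiplesHom_apply, natCast_zsmul, ← map_nsmul, smul_smul, ← pow_succ']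
    refine (QuotientAddGroup.eq_zero_iff _).2 ?_
    rw [fundamentalPower_rat (n + 1)]
    exact AddSubgroup.mem_zmultiples _⟩).comp (signHom (n + 3))

theorem toPfister_milnor {n : ℕ} (v : Fin (n + 3) → ℚˣ) :
    toPfister n (milnor v) = QuotientAddGroup.mk' (fundamentalPower ℚ (n + 4))
      (pfisterClass (List.ofFn fun i => -v i)) := by
  rw [toPfister, AddMonoidHom.comp_apply, signHom_milnor, signFun, pfisterClass_ofFn]
  by_cases h : ∀ i, (v i : ℚ) < 0
  · rw [if_pos h, if_pos (fun i => by simpa using h i), ← Int.cast_one, ZMod.lift_coe]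
    exact one_zsmul _
  · rw [if_neg h, if_neg (fun h' => h fun i => by simpa using h' i), map_zero, map_zero]

theorem lift_signature_one : lift signature (wittClass ℚ 1) = 1 := by
  rw [lift_wittClass]
  show (if (0 : ℚ) < ((1 : ℚˣ) : ℚ) then (1 : ℤ) else -1) = 1
  rw [if_pos]
  norm_num

/-- The signature is an isomorphism of `I ^ n` with `2 ^ n ℤ`. -/
theorem signature_injOn_fundamentalPower {n : ℕ} {z : W ℚ}
    (hz : z ∈ fundamentalPower ℚ (n + 3)) (h : lift signature z = 0) : z = 0 := by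
  rw [fundamentalPower_rat, AddSubgroup.mem_zmultiples_iff] at hz
  obtain ⟨k, rfl⟩ := hz
  rw [map_zsmul, map_nsmul, lift_signature_one, smul_eq_mul, nsmul_eq_mul, mul_one] at h
  rw [(mul_eq_zero.1 h).resolve_right (by exact_mod_cast pow_ne_zero _ two_ne_zero), zero_smul]

theorem toPfister_injective (n : ℕ) : Function.Injective (toPfister n) := by
  refine (injective_iff_map_eq_zero _).2 fun x hx => signHom_bijective.1 ?_
  rw [map_zero]
  by_contra hne
  have h1 : signHom (n + 3) x = 1 :=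
    ((by decide : ∀ z : ZMod 2, z ≠ 0 → z = 1) _ hne)
  rw [toPfister, AddMonoidHom.comp_apply, h1, ← Int.cast_one, ZMod.lift_coe] at hx
  simp only [zmultiplesHom_apply, one_zsmul] at hx
  have hmem := (QuotientAddGroup.eq_zero_iff _).1 hx
  rw [fundamentalPower_rat (n + 1), AddSubgroup.mem_zmultiples_iff] at hmem
  obtain ⟨k, hk⟩ := hmem
  have h := congrArg (lift signature) hk
  rw [map_zsmul, map_nsmul, map_nsmul, lift_signature_one, smul_eq_mul, nsmul_eq_mul, nsmul_eq_mul,
    mul_one, mul_one, pow_succ, Nat.cast_mul, Nat.cast_ofNat] at h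
  have h2 : ((2 ^ (n + 3) : ℕ) : ℤ) ≠ 0 := by exact_mod_cast pow_ne_zero _ two_ne_zero
  have h3 : k * 2 = 1 := mul_right_cancel₀ h2 (by linear_combination h)
  omega

theorem toPfister_range (n : ℕ) : (toPfister n).range =
    (fundamentalPower ℚ (n + 3)).map (QuotientAddGroup.mk' (fundamentalPower ℚ (n + 4))) := by
  refine le_antisymm ?_ ?_
  · rintro _ ⟨x, rfl⟩
    refine milnor_induction (P := fun x => toPfister n x ∈ _) (by rw [map_zero]; exact zero_mem _)
      (fun v => ?_) (fun x hx => by rw [map_neg]; exact neg_mem hx)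
      (fun x y hx hy => by rw [map_add]; exact add_mem hx hy) x
    rw [toPfister_milnor]
    exact AddSubgroup.mem_map_of_mem _ (AddSubgroup.subset_closure ⟨_, rfl⟩)
  · refine (AddMonoidHom.map_closure _ _).trans_le ((AddSubgroup.closure_le _).2 ?_)
    rintro _ ⟨_, ⟨v, rfl⟩, rfl⟩
    refine ⟨milnor fun i => -v i, ?_⟩
    rw [toPfister_milnor]
    simp

end Fermat.Agent.MilnorKRat
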