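import Fermat.Agent.MilnorKRat.Basic
import Fermat.Agent.WittRat.Lifting

/-!
# The theorem of Bass and Tate

For `n ≥ 3` the symbols of units with prime factors up to `p` come from smaller primes, because
`K₂ 𝔽_p = 0`. So `K_n ℚ` is generated by `{-1, …, -1}`, and the sign shows it is `ℤ/2`.
-/

set_option autoImplicit false

noncomputable section

open Function (update)

namespace Fermat.Agent.MilnorKRat

open Fermat.Agent.K2Rat Fermat.Agent.WittRat

attribute [local instance] primesFact

variable {n : ℕ}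

/-- The symbols of units with all prime factors below `N`. -/
def kLayer (n N : ℕ) : AddSubgroup (MilnorK n ℚ) :=
  AddSubgroup.closure (milnor '' {v | ∀ i, v i ∈ smooth N})

theorem milnor_mem_kLayer {N : ℕ} {v : Fin n → ℚˣ} (h : ∀ i, v i ∈ smooth N) :
    milnor v ∈ kLayer n N :=
  AddSubgroup.subset_closure ⟨v, h, rfl⟩

theorem kLayer_mono {M N : ℕ} (h : M ≤ N) : kLayer n M ≤ kLayer n N :=
  AddSubgroup.closure_mono (Set.image_mono fun _ hv i => smooth_mono h (hv i))

theorem exists_mem_kLayer (x : MilnorK n ℚ) : ∃ N, x ∈ kLayer n N := by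
  refine milnor_induction (P := fun x => ∃ N, x ∈ kLayer n N) ⟨0, zero_mem _⟩ (fun v => ?_)
    (fun x ⟨N, h⟩ => ⟨N, neg_mem h⟩) (fun x y ⟨M, hM⟩ ⟨N, hN⟩ => ⟨max M N,
      add_mem (kLayer_mono (le_max_left M N) hM) (kLayer_mono (le_max_right M N) hN)⟩) x
  choose N hN using fun i => exists_mem_smooth (v i)
  exact ⟨Finset.univ.sup N,
    milnor_mem_kLayer fun i => smooth_mono (Finset.le_sup (Finset.mem_univ i)) (hN i)⟩

theorem update_mem_smooth {N : ℕ} {v : Fin n → ℚˣ} {i : Fin n} {a : ℚˣ}
    (h : ∀ k, k ≠ i → v k ∈ smooth N) (ha : a ∈ smooth N) : ∀ k, update v i a k ∈ smooth N := by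
  intro k
  rcases eq_or_ne k i with rfl | hk
  · rwa [Function.update_self]
  · rw [Function.update_of_ne hk]
    exact h k hk

theorem fin_one_ne_zero : (1 : Fin (n + 3)) ≠ 0 := by simp

theorem fin_two_ne_zero : (2 : Fin (n + 3)) ≠ 0 := fun e => by
  have h := congrArg Fin.val e
  rw [Fin.val_two, Fin.val_zero] at h
  omega

theorem fin_two_ne_one : (2 : Fin (n + 3)) ≠ 1 := fun e => by
  have h := congrArg Fin.val e
  rw [Fin.val_two, Fin.val_one] at h
  omega

theorem fin_one_succ : ((1 : Fin (n + 3)) : ℕ) + 1 = ((2 : Fin (n + 3)) : ℕ) := by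
  rw [Fin.val_two, Fin.val_one]

variable {p : ℕ} [hp : Fact p.Prime]

/-- A unit of residue one next to `p`. -/
theorem milnor_mem_of_resHom {v : Fin n → ℚˣ} {i j : Fin n} (hij : (i : ℕ) + 1 = j)
    (hv : ∀ k, k ≠ i → k ≠ j → v k ∈ smooth p) {u : ℚˣ} (hu : u ∈ smooth p)
    (hr : resHom p u = 1) : milnor (update (update v i u) j (natUnit p)) ∈ kLayer n p := by
  have hne : i ≠ j := fun e => by rw [e] at hij; omega
  have h : filtration p ≤ (kLayer n p).comap (lift (pairSymbol v i j hij)) := by
    refine (AddSubgroup.closure_le _).2 ?_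
    rintro _ ⟨a, ha, b, hb, rfl⟩
    show lift (pairSymbol v i j hij) (univSymbol ℚ a b) ∈ kLayer n p
    rw [lift_univSymbol]
    refine milnor_mem_kLayer (update_mem_smooth (fun k hk => ?_) hb)
    rcases eq_or_ne k i with rfl | hki
    · rwa [Function.update_self]
    · rw [Function.update_of_ne hki]
      exact hv k hki hk
  have h' : lift (pairSymbol v i j hij) (univSymbol ℚ u (natUnit p)) ∈ kLayer n p :=
    h (sy_mem_of_resHom hu hr)
  rwa [lift_univSymbol] at h'

/-- Slots after `p`: only the residues matter. -/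
theorem milnor_congr_residue {v : Fin (n + 3) → ℚˣ} (h0 : v 0 = natUnit p)
    (hv : ∀ k, k ≠ 0 → v k ∈ smooth p) {i : Fin (n + 3)} (hi : i = 1 ∨ i = 2) {a b : ℚˣ}
    (ha : a ∈ smooth p) (hb : b ∈ smooth p) (hab : resHom p a = resHom p b) :
    milnor (update v i a) - milnor (update v i b) ∈ kLayer (n + 3) p := by
  have hone : ∀ u ∈ smooth p, resHom p u = 1 → ∀ w : Fin (n + 3) → ℚˣ, w 0 = natUnit p →
      (∀ k, k ≠ 0 → w k ∈ smooth p) → milnor (update w 1 u) ∈ kLayer (n + 3) p := by
    intro u hu hr w hw0 hw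
    set w' := update w 1 u with hw'
    have e0 : w' 0 = natUnit p := by rw [hw', Function.update_of_ne fin_one_ne_zero.symm, hw0]
    have h01 : ((0 : Fin (n + 3)) : ℕ) + 1 = ((1 : Fin (n + 3)) : ℕ) := by simp
    have h := milnor_mem_of_resHom (v := w') h01
      (fun k hk0 hk1 => by rw [hw', Function.update_of_ne hk1]; exact hw k hk0) hu hr
    rw [show update (update w' 0 u) 1 (natUnit p) = update (update w' 0 (w' 1)) 1 (w' 0) by
      rw [e0, show w' 1 = u by rw [hw', Function.update_self]], milnor_swap w' h01] at h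
    exact neg_mem_iff.1 h
  have hd : milnor (update v i a) - milnor (update v i b) = milnor (update v i (a * b⁻¹)) := by
    rw [sub_eq_iff_eq_add, ← milnor_mul, inv_mul_cancel_right]
  rw [hd]
  have hu : a * b⁻¹ ∈ smooth p := mul_mem ha (inv_mem hb)
  have hr : resHom p (a * b⁻¹) = 1 := by rw [map_mul, map_inv, hab, mul_inv_cancel]
  rcases hi with rfl | rfl
  · exact hone _ hu hr v h0 hv
  · set w := update v 2 (a * b⁻¹) with hw
    have e1 : update (update w 1 (w 2)) 2 (w 1) = update (update w 2 (w 1)) 1 (a * b⁻¹) := by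
      rw [show w 2 = a * b⁻¹ by rw [hw, Function.update_self]]
      exact Function.update_comm fin_two_ne_one.symm _ _ _
    refine neg_mem_iff.1 ?_
    rw [← milnor_swap w fin_one_succ, e1]
    refine hone _ hu hr _ ?_ fun k hk => ?_
    · rw [hw, Function.update_of_ne fin_two_ne_zero.symm,
        Function.update_of_ne fin_two_ne_zero.symm, h0]
    · rcases eq_or_ne k 2 with rfl | hk2
      · rw [hw, Function.update_self, Function.update_of_ne fin_two_ne_one.symm]
        exact hv 1 fin_one_ne_zero
      · rw [hw, Function.update_of_ne hk2, Function.update_of_ne hk2]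
        exact hv k hk

theorem resHom_one_sub {u : (ZMod p)ˣ} {w : (ZMod p)ˣ} (h : (u : ZMod p) + w = 1) :
    ∃ b : ℚˣ, b ∈ smooth p ∧ resHom p b = w ∧ (rep u : ℚ) + b = 1 := by
  have hx : (u : ZMod p).val ≠ 0 := val_cast_ne_zero u
  have hx1 : (u : ZMod p).val ≠ 1 := fun e => w.ne_zero (by
    have hu : (u : ZMod p) = 1 := by rw [← ZMod.natCast_zmod_val (u : ZMod p), e, Nat.cast_one]
    rw [hu] at h
    exact add_eq_left.1 h)
  have hy : (u : ZMod p).val - 1 ≠ 0 := by omega
  have hlt : (u : ZMod p).val - 1 < p := lt_of_le_of_lt (Nat.sub_le _ _) (ZMod.val_lt _)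
  refine ⟨-natUnit ((u : ZMod p).val - 1), ?_, ?_, ?_⟩
  · intro q hq
    rw [val_neg]
    exact natUnit_mem_of_lt hy hlt q hq
  · refine Units.ext ?_
    rw [WittRat.resHom_neg, Units.val_neg, resHom_natUnit fun hd =>
      absurd (Nat.le_of_dvd (Nat.pos_of_ne_zero hy) hd) (not_le.2 hlt), Nat.cast_sub (by omega),
      Nat.cast_one, ZMod.natCast_zmod_val]
    linear_combination -h
  · rw [rep, Units.val_neg, coe_natUnit hx, coe_natUnit hy, Nat.cast_sub (by omega), Nat.cast_one]
    ring

/-- **`{p, …}` comes from smaller primes**, as `K₂ 𝔽_p = 0`. -/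
theorem milnor_mem_of_head {v : Fin (n + 3) → ℚˣ} (h0 : v 0 = natUnit p)
    (hv : ∀ k, k ≠ 0 → v k ∈ smooth p) : milnor v ∈ kLayer (n + 3) p := by
  let T : ℚˣ → ℚˣ → MilnorK (n + 3) ℚ ⧸ kLayer (n + 3) p := fun a b =>
    QuotientAddGroup.mk (milnor (update (update v 1 a) 2 b))
  have h12 := fin_one_succ (n := n)
  have hv' : ∀ a ∈ smooth p, update v 1 a 0 = natUnit p ∧
      ∀ k, k ≠ 0 → update v 1 a k ∈ smooth p := fun a ha => by
    refine ⟨by rw [Function.update_of_ne fin_one_ne_zero.symm, h0], fun k hk => ?_⟩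
    rcases eq_or_ne k 1 with rfl | hk1
    · rwa [Function.update_self]
    · rw [Function.update_of_ne hk1]
      exact hv k hk
  have hT2 : ∀ a ∈ smooth p, ∀ b ∈ smooth p, ∀ b' ∈ smooth p, resHom p b = resHom p b' →
      T a b = T a b' := fun a ha b hb b' hb' he => (QuotientAddGroup.eq_iff_sub_mem).2
    (milnor_congr_residue (hv' a ha).1 (hv' a ha).2 (Or.inr rfl) hb hb' he)
  have hT1 : ∀ a ∈ smooth p, ∀ a' ∈ smooth p, ∀ b ∈ smooth p, resHom p a = resHom p a' →
      T a b = T a' b := fun a ha a' ha' b hb he => by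
    have hc : ∀ x, update (update v 1 x) 2 b = update (update v 2 b) 1 x :=
      fun x => Function.update_comm fin_two_ne_one.symm x b v
    refine (QuotientAddGroup.eq_iff_sub_mem).2 ?_
    rw [hc, hc]
    refine milnor_congr_residue ?_ (fun k hk => ?_) (Or.inl rfl) ha ha' he
    · rw [Function.update_of_ne fin_two_ne_zero.symm, h0]
    · rcases eq_or_ne k 2 with rfl | hk2
      · rwa [Function.update_self]
      · rw [Function.update_of_ne hk2]
        exact hv k hk
  let S : SteinbergSymbol (ZMod p) (MilnorK (n + 3) ℚ ⧸ kLayer (n + 3) p) :=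
    { toFun := fun r s => T (rep r) (rep s)
      mul_left := fun r r' s => by
        rw [hT1 _ (rep_mem _) (rep r * rep r') (mul_mem (rep_mem r) (rep_mem r')) _ (rep_mem s)
          (by rw [map_mul, resHom_rep, resHom_rep, resHom_rep])]
        exact (congrArg _ ((pairSymbol v 1 2 h12).mul_left _ _ _)).trans
          (QuotientAddGroup.mk_add _ _ _)
      mul_right := fun r s s' => by
        rw [hT2 _ (rep_mem r) _ (rep_mem _) (rep s * rep s') (mul_mem (rep_mem s) (rep_mem s'))
          (by rw [map_mul, resHom_rep, resHom_rep, resHom_rep])]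
        exact (congrArg _ ((pairSymbol v 1 2 h12).mul_right _ _ _)).trans
          (QuotientAddGroup.mk_add _ _ _)
      steinberg := fun r s h => by
        obtain ⟨b, hb, hbr, hab⟩ := resHom_one_sub h
        rw [hT2 _ (rep_mem r) _ (rep_mem s) b hb (by rw [resHom_rep, hbr])]
        exact (congrArg _ ((pairSymbol v 1 2 h12).steinberg _ _ hab)).trans
          (QuotientAddGroup.mk_zero _) }
  have h1 : v 1 ∈ smooth p := hv 1 fin_one_ne_zero
  have h2 : v 2 ∈ smooth p := hv 2 fin_two_ne_zero
  have hz : T (v 1) (v 2) = 0 := by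
    rw [hT1 _ h1 _ (rep_mem (resHom p (v 1))) _ h2 (resHom_rep _).symm,
      hT2 _ (rep_mem _) _ h2 _ (rep_mem (resHom p (v 2))) (resHom_rep _).symm]
    exact S.eq_zero_of_finite _ _
  rw [show milnor v = milnor (update (update v 1 (v 1)) 2 (v 2)) by
    rw [Function.update_eq_self, Function.update_eq_self]]
  exact (QuotientAddGroup.eq_zero_iff _).1 hz

/-- Bubbling `p` to the front. -/
theorem milnor_mem_of_pure (v : Fin (n + 3) → ℚˣ)
    (hv : ∀ k, v k = natUnit p ∨ v k ∈ smooth p) : milnor v ∈ kLayer (n + 3) p := by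
  classical
  have hP : natUnit p ∉ smooth p := fun h => one_ne_zero (α := ℤ) (by
    rw [← val_natUnit_self (p := p)]
    exact h ⟨p, hp.out⟩ le_rfl)
  let μ : (Fin (n + 3) → ℚˣ) → ℕ := fun w =>
    ∑ k, if w k = natUnit p then (k : ℕ) + 1 else 0
  induction hm : μ v using Nat.strong_induction_on generalizing v with
  | _ m ih =>
    by_cases hall : ∀ k, k ≠ 0 → v k ∈ smooth p
    · rcases hv 0 with h0 | h0
      · exact milnor_mem_of_head h0 hall
      · exact milnor_mem_kLayer fun k => by
          rcases eq_or_ne k 0 with rfl | hk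
          exacts [h0, hall k hk]
    push Not at hall
    obtain ⟨j, hj0, hjs⟩ := hall
    have hjp : v j = natUnit p := (hv j).resolve_right hjs
    have hjpos : (j : ℕ) ≠ 0 := fun e => hj0 (Fin.ext e)
    set i : Fin (n + 3) := ⟨(j : ℕ) - 1, by omega⟩
    have hij : (i : ℕ) + 1 = j := by simp [i]; omega
    have hne : i ≠ j := fun e => by rw [e] at hij; omega
    have hsplit : ∀ w : Fin (n + 3) → ℚˣ, μ w =
        (if w i = natUnit p then (i : ℕ) + 1 else 0) +
          ((if w j = natUnit p then (j : ℕ) + 1 else 0) +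
            ∑ k ∈ (Finset.univ.erase i).erase j,
              if w k = natUnit p then (k : ℕ) + 1 else 0) := fun w => by
      simp only [μ]
      rw [← Finset.add_sum_erase _ _ (Finset.mem_univ i),
        ← Finset.add_sum_erase _ _ (Finset.mem_erase.2 ⟨hne.symm, Finset.mem_univ j⟩)]
    have hrest : ∀ a b, ∑ k ∈ (Finset.univ.erase i).erase j,
        (if update (update v i a) j b k = natUnit p then (k : ℕ) + 1 else 0) =
          ∑ k ∈ (Finset.univ.erase i).erase j, if v k = natUnit p then (k : ℕ) + 1 else 0 :=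
      fun a b => Finset.sum_congr rfl fun k hk => by
        rw [Finset.mem_erase, Finset.mem_erase] at hk
        rw [Function.update_of_ne hk.1, Function.update_of_ne hk.2.1]
    rcases hv i with hi | hi
    · -- two neighbours equal `p`
      rw [milnor_self v hij (hi.trans hjp.symm)]
      refine ih _ ?_ _ (fun k => ?_) rfl
      · rw [← hm, hsplit v, hsplit, show update v j (-1) = update (update v i (v i)) j (-1) by
          rw [Function.update_eq_self], hrest, Function.update_self,
          Function.update_of_ne hne, Function.update_self, if_pos hi, if_pos hjp, if_neg]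
        · omega
        · intro e
          have := congrArg (fun a : ℚˣ => (a : ℚ)) e
          simp only [Units.val_neg, Units.val_one, coe_natUnit hp.out.ne_zero] at this
          linarith [(Nat.cast_nonneg p : (0 : ℚ) ≤ p)]
      · rcases eq_or_ne k j with rfl | hk
        · rw [Function.update_self]
          exact Or.inr fun q _ => by rw [val_neg, val_one]
        · rw [Function.update_of_ne hk]
          exact hv k
    · -- move `p` one step to the front
      refine neg_mem_iff.1 ?_
      rw [← milnor_swap v hij]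
      refine ih _ ?_ _ (fun k => ?_) rfl
      · have hip : v i ≠ natUnit p := fun e => hP (e ▸ hi)
        rw [← hm, hsplit v, hsplit, hrest, Function.update_self, Function.update_of_ne hne,
          Function.update_self, if_pos hjp, if_neg hip, if_pos hjp]
        omega
      · rcases eq_or_ne k j with rfl | hk
        · rw [Function.update_self]
          exact Or.inr hi
        · rw [Function.update_of_ne hk]
          rcases eq_or_ne k i with rfl | hki
          · rw [Function.update_self]
            exact Or.inl hjp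
          · rw [Function.update_of_ne hki]
            exact hv k

theorem exists_decomposition {a : ℚˣ} (ha : a ∈ smooth (p + 1)) :
    ∃ a' ∈ smooth p, ∃ k : ℤ, a = a' * natUnit p ^ k := by
  refine ⟨a * natUnit p ^ (-val p a), fun q hq => ?_, val p a, ?_⟩
  · rw [val_mul, val_zpow]
    rcases eq_or_lt_of_le hq with e | hlt
    · obtain rfl : q = ⟨p, hp.out⟩ := Subtype.ext e.symm
      show val p a + -val p a * val p (natUnit p) = 0
      rw [val_natUnit_self]
      ring
    · rw [ha q hlt, val_natUnit_prime (r := (q : ℕ)) (q := p) hlt.ne']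
      ring
  · rw [mul_assoc, ← zpow_add, neg_add_cancel, zpow_zero, mul_one]

/-- **The step from `p` to the smaller primes.** -/
theorem kLayer_succ_le_prime : kLayer (n + 3) (p + 1) ≤ kLayer (n + 3) p := by
  have key : ∀ m ≤ n + 3, ∀ v : Fin (n + 3) → ℚˣ,
      (∀ k : Fin (n + 3), (k : ℕ) < m → v k ∈ smooth (p + 1)) →
      (∀ k : Fin (n + 3), m ≤ (k : ℕ) → v k = natUnit p ∨ v k ∈ smooth p) →
      milnor v ∈ kLayer (n + 3) p := by
    intro m
    induction m with
    | zero => exact fun _ v _ h => milnor_mem_of_pure v fun k => h k (Nat.zero_le _)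
    | succ m ih =>
      intro hm v h1 h2
      set i : Fin (n + 3) := ⟨m, by omega⟩
      obtain ⟨a, ha, k, hk⟩ := exists_decomposition (h1 i (Nat.lt_succ_self m))
      rw [← Function.update_eq_self i v, hk, milnor_mul, milnor_zpow]
      have hstep : ∀ x, (x = natUnit p ∨ x ∈ smooth p) → milnor (update v i x) ∈ kLayer (n + 3) p :=
        fun x hx => by
        refine ih (by omega) _ (fun l hl => ?_) fun l hl => ?_
        · rw [Function.update_of_ne fun e => by rw [e] at hl; exact absurd hl (lt_irrefl m)]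
          exact h1 l (by omega)
        · rcases eq_or_ne l i with rfl | hli
          · rwa [Function.update_self]
          · rw [Function.update_of_ne hli]
            exact h2 l (lt_of_le_of_ne hl fun e => hli (Fin.ext e.symm))
      exact add_mem (hstep a (Or.inr ha)) (zsmul_mem (hstep _ (Or.inl rfl)) k)
  refine (AddSubgroup.closure_le _).2 ?_
  rintro _ ⟨v, hv, rfl⟩
  exact key (n + 3) le_rfl v (fun k _ => hv k) fun k hk => absurd k.2 (not_lt.2 hk)

omit hp in
theorem smooth_succ_le {N : ℕ} (hN : ¬ N.Prime) : smooth (N + 1) ≤ smooth N := fun a ha q hq => by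
  rcases eq_or_lt_of_le hq with e | hlt
  · exact absurd (e ▸ q.2) hN
  · exact ha q hlt

omit hp in
theorem kLayer_le_two (N : ℕ) : kLayer (n + 3) N ≤ kLayer (n + 3) 2 := by
  induction N with
  | zero => exact kLayer_mono (Nat.zero_le 2)
  | succ N ih =>
    rcases le_or_gt (N + 1) 2 with h | h
    · exact kLayer_mono h
    refine le_trans ?_ ih
    by_cases hN : N.Prime
    · have := Fact.mk hN
      exact kLayer_succ_le_prime
    · exact AddSubgroup.closure_mono
        (Set.image_mono fun v hv i => smooth_succ_le hN (hv i))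

omit hp in
/-- **`K_n ℚ` is generated by `{-1, …, -1}` for `n ≥ 3`.** -/
theorem exists_zsmul_eq (x : MilnorK (n + 3) ℚ) :
    ∃ k : ℤ, x = k • milnor (fun _ => (-1 : ℚˣ)) := by
  obtain ⟨N, hN⟩ := exists_mem_kLayer x
  have hle : kLayer (n + 3) 2 ≤
      AddSubgroup.zmultiples (milnor (fun _ : Fin (n + 3) => (-1 : ℚˣ))) := by
    refine (AddSubgroup.closure_le _).2 ?_
    rintro _ ⟨v, hv, rfl⟩
    by_cases h : ∀ i, v i = -1
    · rw [funext h]
      exact AddSubgroup.mem_zmultiples _
    · push Not at h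
      obtain ⟨i, hi⟩ := h
      rw [milnor_of_eq_one ((eq_one_or_neg_one (hv i)).resolve_right hi)]
      exact zero_mem _
  obtain ⟨k, hk⟩ := AddSubgroup.mem_zmultiples_iff.1 (hle (kLayer_le_two N hN))
  exact ⟨k, hk.symm⟩

omit hp

/-- All entries negative. -/
def signFun (v : Fin n → ℚˣ) : ZMod 2 := if ∀ i, (v i : ℚ) < 0 then 1 else 0

theorem signFun_mul (v : Fin n → ℚˣ) (i : Fin n) (a b : ℚˣ) :
    signFun (update v i (a * b)) = signFun (update v i a) + signFun (update v i b) := by
  classical
  have h : ∀ x : ℚˣ, (∀ k, ((update v i x k : ℚˣ) : ℚ) < 0) ↔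
      (x : ℚ) < 0 ∧ ∀ k, k ≠ i → ((v k : ℚˣ) : ℚ) < 0 := fun x => by
    refine ⟨fun h => ⟨by simpa using h i, fun k hk => ?_⟩, fun h k => ?_⟩
    · have := h k
      rwa [Function.update_of_ne hk] at this
    · rcases eq_or_ne k i with rfl | hk
      · rw [Function.update_self]
        exact h.1
      · rw [Function.update_of_ne hk]
        exact h.2 k hk
  by_cases hR : ∀ k, k ≠ i → ((v k : ℚˣ) : ℚ) < 0
  · simp only [signFun, h, eq_true hR, and_true, Units.val_mul, mul_neg_iff]
    rcases a.ne_zero.lt_or_gt with ha | ha <;> rcases b.ne_zero.lt_or_gt with hb | hb <;>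
      simp [ha, hb, ha.not_gt, hb.not_gt]
    all_goals decide
  · simp only [signFun, h, hR, and_false, if_false, add_zero]

/-- The sign symbol. -/
def signHom (n : ℕ) : MilnorK n ℚ →+ ZMod 2 :=
  milnorLift signFun signFun_mul fun v i j _ h =>
    if_neg fun hn => by linarith [hn i, hn j]

theorem signHom_milnor (v : Fin n → ℚˣ) : signHom n (milnor v) = signFun v :=
  milnorLift_apply _ _ _ v

theorem signHom_neg_one : signHom n (milnor (fun _ => (-1 : ℚˣ))) = 1 := by
  rw [signHom_milnor, signFun, if_pos]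
  intro _
  simp

theorem milnor_neg_one_add_self :
    milnor (fun _ : Fin (n + 1) => (-1 : ℚˣ)) + milnor (fun _ => (-1 : ℚˣ)) = 0 := by
  have h := milnor_mul (fun _ : Fin (n + 1) => (-1 : ℚˣ)) 0 (-1) (-1)
  rw [Function.update_eq_self_iff.2 rfl, neg_mul_neg, one_mul] at h
  rw [← h]
  exact milnor_of_eq_one (i := 0) (Function.update_self ..)

theorem signHom_bijective : Function.Bijective (signHom (n + 3)) := by
  refine ⟨(injective_iff_map_eq_zero _).2 fun x hx => ?_, fun z => ?_⟩
  · obtain ⟨k, rfl⟩ := exists_zsmul_eq x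
    rw [map_zsmul, signHom_neg_one, zsmul_one, ZMod.intCast_zmod_eq_zero_iff_dvd] at hx
    obtain ⟨m, rfl⟩ := hx
    rw [Nat.cast_ofNat, mul_zsmul', two_zsmul, milnor_neg_one_add_self, smul_zero]
  · obtain ⟨k, rfl⟩ := ZMod.intCast_surjective z
    exact ⟨k • milnor (fun _ => (-1 : ℚˣ)), by rw [map_zsmul, signHom_neg_one, zsmul_one]⟩

/-- **The theorem of Bass and Tate**: `K_n ℚ ≅ ℤ/2` for `n ≥ 3`. -/
def milnorKRatEquiv (n : ℕ) : MilnorK (n + 3) ℚ ≃+ ZMod 2 :=
  AddEquiv.ofBijective (signHom (n + 3)) signHom_bijective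

end Fermat.Agent.MilnorKRat
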